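import Mathlib
import Fermat.Prelude.Thm_IsAdicComplete_of_module_finite

set_option autoImplicit false

namespace Fermat.Agent.S53.H43

open MvPowerSeries

section Decomp

variable {O : Type} [CommRing O] {n : ℕ}

/-- Explicit "division by the variables": the `i`-th quotient collects the monomials whose
first nonzero exponent sits at `i`. -/
noncomputable def divX (g : MvPowerSeries (Fin n) O) (i : Fin n) : MvPowerSeries (Fin n) O :=
  fun d => if (∀ j, j < i → d j = 0) then coeff (d + Finsupp.single i 1) g else 0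

lemma coeff_divX (g : MvPowerSeries (Fin n) O) (i : Fin n) (d : Fin n →₀ ℕ) :
    coeff d (divX g i) =
      if (∀ j, j < i → d j = 0) then coeff (d + Finsupp.single i 1) g else 0 := rfl

lemma coeff_X_mul_divX (g : MvPowerSeries (Fin n) O) (i : Fin n) (m : Fin n →₀ ℕ) :
    coeff m (X i * divX g i) =
      if (m i ≠ 0 ∧ ∀ j, j < i → m j = 0) then coeff m g else 0 := by
  classical
  rw [X_def, coeff_monomial_mul]
  by_cases hmi : m i = 0
  · have h1 : ¬ (Finsupp.single i 1 ≤ m) := by
      intro h
      have := h i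
      simp [hmi] at this
    rw [if_neg h1, if_neg (by simp [hmi])]
  · have h1 : Finsupp.single i 1 ≤ m := by
      intro j
      by_cases hj : j = i
      · subst hj
        simp only [Finsupp.single_eq_same]
        omega
      · simp [Finsupp.single_eq_of_ne hj]
    have h2 : m - Finsupp.single i 1 + Finsupp.single i 1 = m := tsub_add_cancel_of_le h1
    rw [if_pos h1, one_mul, coeff_divX, h2]
    have h3 : (∀ j, j < i → (m - Finsupp.single i 1 : Fin n →₀ ℕ) j = 0) ↔
        (∀ j, j < i → m j = 0) := by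
      constructor
      · intro h j hj
        have := h j hj
        simpa [Finsupp.tsub_apply, Finsupp.single_eq_of_ne (ne_of_lt hj)] using this
      · intro h j hj
        simp [Finsupp.tsub_apply, h j hj]
    by_cases h4 : ∀ j, j < i → m j = 0
    · rw [if_pos (h3.mpr h4), if_pos ⟨hmi, h4⟩]
    · rw [if_neg (fun h => h4 (h3.mp h)), if_neg (fun h => h4 h.2)]

/-- A power series (in finitely many variables) without constant term is the sum of the
`X i * divX g i`. -/
theorem eq_sum_X_mul_divX (g : MvPowerSeries (Fin n) O) (hg : constantCoeff g = 0) :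
    g = ∑ i, X i * divX g i := by
  classical
  ext m
  rw [map_sum]
  simp only [coeff_X_mul_divX]
  by_cases hm : m = 0
  · subst hm
    rw [Finset.sum_eq_zero]
    · simpa using hg
    · intro i _
      rw [if_neg]
      simp
  · -- the least index with nonzero exponent
    have hex : ∃ i, m i ≠ 0 := by
      by_contra h
      push Not at h
      exact hm (Finsupp.ext h)
    obtain ⟨i₀, hi₀, hmin⟩ : ∃ i₀, m i₀ ≠ 0 ∧ ∀ j, j < i₀ → m j = 0 := by
      classical
      let s : Finset (Fin n) := Finset.univ.filter (fun i => m i ≠ 0)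
      have hs : s.Nonempty := by
        obtain ⟨i, hi⟩ := hex
        exact ⟨i, by simp [s, hi]⟩
      refine ⟨s.min' hs, ?_, ?_⟩
      · have := Finset.min'_mem s hs
        simpa [s] using this
      · intro j hj
        by_contra hne
        have hjs : j ∈ s := by simp [s, hne]
        exact absurd (Finset.min'_le s j hjs) (not_le.mpr hj)
    rw [Finset.sum_eq_single i₀]
    · rw [if_pos ⟨hi₀, hmin⟩]
    · intro i _ hi
      rw [if_neg]
      rintro ⟨h1, h2⟩
      rcases lt_trichotomy i i₀ with h | h | h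
      · exact h1 (hmin i h)
      · exact hi h
      · exact hi₀ (h2 i₀ h)
    · intro h
      exact absurd (Finset.mem_univ i₀) h

lemma coeff_divX_eq_zero_of (g : MvPowerSeries (Fin n) O) (i : Fin n) (d : Fin n →₀ ℕ)
    (h : coeff (d + Finsupp.single i 1) g = 0) : coeff d (divX g i) = 0 := by
  rw [coeff_divX]
  split_ifs
  · exact h
  · rfl

/-- (Q3) A power series minus its constant term lies in the ideal generated by the variables. -/
theorem sub_C_constantCoeff_mem (f : MvPowerSeries (Fin n) O) :
    f - MvPowerSeries.C (MvPowerSeries.constantCoeff f) ∈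
      Ideal.span (Set.range (MvPowerSeries.X : Fin n → MvPowerSeries (Fin n) O)) := by
  have h0 : constantCoeff (f - C (constantCoeff f)) = 0 := by simp
  rw [eq_sum_X_mul_divX _ h0]
  refine Ideal.sum_mem _ fun i _ => ?_
  exact Ideal.mul_mem_right _ _ (Ideal.subset_span ⟨i, rfl⟩)

/-- A power series all of whose coefficients of total degree `< m` vanish lies in the `m`-th
power of the ideal generated by the variables. -/
theorem mem_pow_span_X_of_coeff_eq_zero (m : ℕ) (g : MvPowerSeries (Fin n) O)
    (hg : ∀ d : Fin n →₀ ℕ, d.degree < m → coeff d g = 0) :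
    g ∈ Ideal.span (Set.range (MvPowerSeries.X : Fin n → MvPowerSeries (Fin n) O)) ^ m := by
  induction m generalizing g with
  | zero => simp
  | succ m ih =>
    have h0 : constantCoeff g = 0 := by
      have := hg 0 (by simp)
      simpa using this
    rw [eq_sum_X_mul_divX _ h0, pow_succ']
    refine Ideal.sum_mem _ fun i _ => ?_
    refine Ideal.mul_mem_mul (Ideal.subset_span ⟨i, rfl⟩) (ih _ fun d hd => ?_)
    refine coeff_divX_eq_zero_of g i d (hg _ ?_)
    simp only [map_add, Finsupp.degree_single]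
    omega

/-- Every power series is congruent to its truncation modulo the `m`-th power of the ideal
generated by the variables. -/
theorem sub_truncTotal_mem_pow (m : ℕ) (f : MvPowerSeries (Fin n) O) :
    f - ((truncTotal m f : MvPolynomial (Fin n) O) : MvPowerSeries (Fin n) O) ∈
      Ideal.span (Set.range (MvPowerSeries.X : Fin n → MvPowerSeries (Fin n) O)) ^ m := by
  refine mem_pow_span_X_of_coeff_eq_zero m _ fun d hd => ?_
  rw [map_sub, MvPolynomial.coeff_coe, coeff_truncTotal _ hd, sub_self]

end Decomp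

section Maps

variable {O A : Type} [CommRing O] [CommRing A] [IsLocalRing A] [Algebra O A] {n m : ℕ}

/-- (Q1) Over a local `O`-algebra with nilpotent maximal ideal, the variables of a power series
ring can be sent to arbitrary elements of the maximal ideal. -/
theorem exists_algHom_X (hm : IsLocalRing.maximalIdeal A ^ m = ⊥) (a : Fin n → A)
    (ha : ∀ i, a i ∈ IsLocalRing.maximalIdeal A) :
    ∃ φ : MvPowerSeries (Fin n) O →ₐ[O] A, ∀ i, φ (MvPowerSeries.X i) = a i := by
  classical
  let ψ : MvPolynomial (Fin n) O →ₐ[O] A := MvPolynomial.aeval a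
  have hmap : Ideal.map ψ (MvPolynomial.idealOfVars (Fin n) O) ≤ IsLocalRing.maximalIdeal A := by
    rw [Ideal.map_span, Ideal.span_le]
    rintro _ ⟨_, ⟨i, rfl⟩, rfl⟩
    simpa [ψ] using ha i
  have hker : ∀ p ∈ MvPolynomial.idealOfVars (Fin n) O ^ m, ψ p = 0 := by
    intro p hp
    have h1 : ψ p ∈ Ideal.map ψ (MvPolynomial.idealOfVars (Fin n) O ^ m) :=
      Ideal.mem_map_of_mem ψ hp
    rw [Ideal.map_pow] at h1
    have h2 := Ideal.pow_right_mono hmap m h1
    rw [hm] at h2
    simpa using h2
  let ψ' : (MvPolynomial (Fin n) O ⧸ MvPolynomial.idealOfVars (Fin n) O ^ m) →ₐ[O] A :=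
    Ideal.Quotient.liftₐ _ ψ hker
  let τ : MvPowerSeries (Fin n) O →ₐ[O]
      (MvPolynomial (Fin n) O ⧸ MvPolynomial.idealOfVars (Fin n) O ^ m) :=
    (truncTotalAlgHom (Fin n) O m).restrictScalars O
  refine ⟨ψ'.comp τ, fun i => ?_⟩
  have hX : algebraMap (MvPolynomial (Fin n) O) (MvPowerSeries (Fin n) O) (MvPolynomial.X i) =
      MvPowerSeries.X i := by
    rw [MvPowerSeries.algebraMap_apply', MvPolynomial.coe_X, MvPowerSeries.map_X]
  have h3 : τ (MvPowerSeries.X i) =
      Ideal.Quotient.mk _ (MvPolynomial.X i : MvPolynomial (Fin n) O) := by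
    have := (truncTotalAlgHom (Fin n) O m).commutes (MvPolynomial.X i)
    rw [hX] at this
    exact this
  have h4 : ψ' (Ideal.Quotient.mk _ (MvPolynomial.X i)) = ψ (MvPolynomial.X i) :=
    AlgHom.congr_fun (Ideal.Quotient.liftₐ_comp _ ψ hker) (MvPolynomial.X i)
  rw [AlgHom.comp_apply, h3, h4]
  simp [ψ]

/-- An algebra map out of a power series ring sending the variables into the maximal ideal
kills the `m`-th power of the ideal of variables once `𝔪 ^ m = ⊥`. -/
theorem algHom_eq_zero_of_mem_pow (hm : IsLocalRing.maximalIdeal A ^ m = ⊥)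
    (θ : MvPowerSeries (Fin n) O →ₐ[O] A)
    (hθ : ∀ i, θ (MvPowerSeries.X i) ∈ IsLocalRing.maximalIdeal A)
    (r : MvPowerSeries (Fin n) O)
    (hr : r ∈ Ideal.span (Set.range (MvPowerSeries.X : Fin n → MvPowerSeries (Fin n) O)) ^ m) :
    θ r = 0 := by
  have hmap : Ideal.map θ (Ideal.span (Set.range
      (MvPowerSeries.X : Fin n → MvPowerSeries (Fin n) O))) ≤ IsLocalRing.maximalIdeal A := by
    rw [Ideal.map_span, Ideal.span_le]
    rintro _ ⟨_, ⟨i, rfl⟩, rfl⟩
    exact hθ i
  have h1 : θ r ∈ Ideal.map θ (Ideal.span (Set.range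
      (MvPowerSeries.X : Fin n → MvPowerSeries (Fin n) O)) ^ m) := Ideal.mem_map_of_mem θ hr
  rw [Ideal.map_pow] at h1
  have h2 := Ideal.pow_right_mono hmap m h1
  rw [hm] at h2
  simpa using h2

/-- (Q2) Two algebra maps out of a power series ring into a local algebra with nilpotent
maximal ideal agree as soon as they agree on the variables (and send them to the maximal
ideal). -/
theorem algHom_ext_X (hm : IsLocalRing.maximalIdeal A ^ m = ⊥)
    (φ ψ : MvPowerSeries (Fin n) O →ₐ[O] A)
    (hφ : ∀ i, φ (MvPowerSeries.X i) ∈ IsLocalRing.maximalIdeal A)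
    (h : ∀ i, φ (MvPowerSeries.X i) = ψ (MvPowerSeries.X i)) : φ = ψ := by
  have hψ : ∀ i, ψ (MvPowerSeries.X i) ∈ IsLocalRing.maximalIdeal A := fun i => h i ▸ hφ i
  have hpoly : ∀ p : MvPolynomial (Fin n) O,
      φ (p : MvPowerSeries (Fin n) O) = ψ (p : MvPowerSeries (Fin n) O) := by
    intro p
    induction p using MvPolynomial.induction_on with
    | C a =>
      rw [MvPolynomial.coe_C, MvPowerSeries.c_eq_algebraMap, AlgHom.commutes, AlgHom.commutes]
    | add p q hp hq => rw [MvPolynomial.coe_add, map_add, map_add, hp, hq]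
    | mul_X p i hp => rw [MvPolynomial.coe_mul, MvPolynomial.coe_X, map_mul, map_mul, hp, h i]
  ext f
  have hf : f = (f - ((truncTotal m f : MvPolynomial (Fin n) O) : MvPowerSeries (Fin n) O)) +
      ((truncTotal m f : MvPolynomial (Fin n) O) : MvPowerSeries (Fin n) O) := by ring
  rw [hf, map_add, map_add, hpoly,
    algHom_eq_zero_of_mem_pow hm φ hφ _ (sub_truncTotal_mem_pow m f),
    algHom_eq_zero_of_mem_pow hm ψ hψ _ (sub_truncTotal_mem_pow m f)]

end Maps

section Quotient

variable {O : Type} [CommRing O] [IsLocalRing O] {n : ℕ}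

/-- (Q4) In a local quotient of `O⟦X₀,…,Xₙ⟧` in which `X₀` becomes the uniformizer, the maximal
ideal is generated by the images of the variables. -/
theorem maximalIdeal_quotient_eq (ϖ : O)
    (hϖ : IsLocalRing.maximalIdeal O = Ideal.span {ϖ})
    (K : Ideal (MvPowerSeries (Fin (n + 1)) O))
    [IsLocalRing (MvPowerSeries (Fin (n + 1)) O ⧸ K)]
    (hK : MvPowerSeries.X 0 - MvPowerSeries.C ϖ ∈ K) :
    IsLocalRing.maximalIdeal (MvPowerSeries (Fin (n + 1)) O ⧸ K) =
      (Ideal.span (Set.range (MvPowerSeries.X :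
        Fin (n + 1) → MvPowerSeries (Fin (n + 1)) O))).map (Ideal.Quotient.mk K) := by
  have hloc : IsLocalHom (Ideal.Quotient.mk K) :=
    IsLocalHom.of_surjective _ Ideal.Quotient.mk_surjective
  apply le_antisymm
  · intro x hx
    obtain ⟨f, rfl⟩ := Ideal.Quotient.mk_surjective x
    have hf : ¬ IsUnit f := fun hu =>
      (IsLocalRing.mem_maximalIdeal _).mp hx (hu.map (Ideal.Quotient.mk K))
    have hf0 : constantCoeff f ∈ IsLocalRing.maximalIdeal O := by
      rw [IsLocalRing.mem_maximalIdeal, mem_nonunits_iff]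
      exact fun hu => hf (MvPowerSeries.isUnit_iff_constantCoeff.mpr hu)
    rw [hϖ, Ideal.mem_span_singleton'] at hf0
    obtain ⟨c, hc⟩ := hf0
    have hX0 : Ideal.Quotient.mk K (MvPowerSeries.C ϖ) =
        Ideal.Quotient.mk K (MvPowerSeries.X 0) := by
      rw [eq_comm, Ideal.Quotient.eq]
      exact hK
    have hdecomp : f = (f - C (constantCoeff f)) + C c * C ϖ := by
      rw [← map_mul, hc]; ring
    rw [hdecomp, map_add, map_mul, hX0]
    refine Ideal.add_mem _ (Ideal.mem_map_of_mem _ (sub_C_constantCoeff_mem f)) ?_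
    exact Ideal.mul_mem_left _ _ (Ideal.mem_map_of_mem _ (Ideal.subset_span ⟨0, rfl⟩))
  · rw [Ideal.map_span, Ideal.span_le]
    rintro _ ⟨_, ⟨i, rfl⟩, rfl⟩
    refine map_nonunit (Ideal.Quotient.mk K) _ ?_
    rw [IsLocalRing.mem_maximalIdeal, mem_nonunits_iff,
      MvPowerSeries.isUnit_iff_constantCoeff, MvPowerSeries.constantCoeff_X]
    exact not_isUnit_zero

/-- (Q5) Such a quotient is complete for its maximal ideal (for `O` noetherian). -/
theorem isAdicComplete_quotient [IsNoetherianRing O] (ϖ : O)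
    (hϖ : IsLocalRing.maximalIdeal O = Ideal.span {ϖ})
    (K : Ideal (MvPowerSeries (Fin (n + 1)) O))
    [IsLocalRing (MvPowerSeries (Fin (n + 1)) O ⧸ K)]
    (hK : MvPowerSeries.X 0 - MvPowerSeries.C ϖ ∈ K) :
    IsAdicComplete (IsLocalRing.maximalIdeal (MvPowerSeries (Fin (n + 1)) O ⧸ K))
      (MvPowerSeries (Fin (n + 1)) O ⧸ K) := by
  rw [maximalIdeal_quotient_eq ϖ hϖ K hK, ← Ideal.Quotient.algebraMap_eq,
    IsAdicComplete.map_algebraMap_iff]
  exact IsAdicComplete.of_module_finite _ _

end Quotient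

end Fermat.Agent.S53.H43
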